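import Fermat.Agent.S17.Curve.Unif

/-!
# S17 / H3 : unramifiedness outside a finite set of primes (definitions)

Fix `d`, `e` and two `e`-tuples of places `Sp`, `Sm` (`s = [∑ Sp - ∑ Sm]` will be a nonzero 2-torsion class).
We study the set `VV Sp Sm` of all `(x, x', φ₁, φ₂)`, `x, x' ∈ Chat^d`, `φ₁, φ₂ ∈ K^m ≅ L_k` (`k = lev N (d+e)`) such that the two
families `Φ₂ * fam(x ∪ Sp)`, `Φ₁ * fam(x' ∪ Sm)` together span a space of dimension `≤ ρ`.  For nonzero blocks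
`x_j ∼ pt P_j`, `x'_j ∼ pt P'_j` this means `∑ P_j + ∑ Sp - ∑ P'_j - ∑ Sm = div (Φ₁ / Φ₂)`.
-/

set_option autoImplicit false
set_option linter.unusedSectionVars false

open AlgebraicCurve ModularCurve IntermediateField

namespace Fermat.Agent.S17

open FF

namespace H3

variable (N : ℕ) [NeZero N]

/-- the auxiliary level `k₀` of the spanning families -/
noncomputable def k0 : ℕ := (rc Kb (FN N)).toNat + mu0 N

/-- the level of the spanning families for `n` points -/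
noncomputable def lev (n : ℕ) : ℕ := n * mu0 N + k0 N

/-- the common dimension of the spaces `L(lev n ∞ - ∑_{j<n} P_j)` -/
noncomputable def rho (n : ℕ) : ℕ := mk N (lev N n) - n

/-- index set of the variables `x_j`, `x'_j` (`j < d`), `φ₁`, `φ₂`. -/
abbrev Var (d n : ℕ) : Type :=
  (Fin d × Fin (mk N (mu0 N))) ⊕ (Fin d × Fin (mk N (mu0 N))) ⊕ Fin (mk N (lev N n)) ⊕ Fin (mk N (lev N n))

/-- index set of the blocks of variables -/
abbrev Blk (d : ℕ) : Type := Fin d ⊕ Fin d ⊕ Unit ⊕ Unit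

variable {N}
variable {d n e : ℕ}

/-- the block of a variable -/
def blk : Var N d n → Blk d
  | Sum.inl (j, _) => Sum.inl j
  | Sum.inr (Sum.inl (j, _)) => Sum.inr (Sum.inl j)
  | Sum.inr (Sum.inr (Sum.inl _)) => Sum.inr (Sum.inr (Sum.inl ()))
  | Sum.inr (Sum.inr (Sum.inr _)) => Sum.inr (Sum.inr (Sum.inr ()))

/-- the vectors `x_j` -/
def X (z : Var N d n → Kb) (j : Fin d) : Fin (mk N (mu0 N)) → Kb := fun i => z (Sum.inl (j, i))

/-- the vectors `x'_j` -/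
def X' (z : Var N d n → Kb) (j : Fin d) : Fin (mk N (mu0 N)) → Kb := fun i => z (Sum.inr (Sum.inl (j, i)))

/-- the coordinate vector `φ₁` -/
def phi1 (z : Var N d n → Kb) : Fin (mk N (lev N n)) → Kb := fun a => z (Sum.inr (Sum.inr (Sum.inl a)))

/-- the coordinate vector `φ₂` -/
def phi2 (z : Var N d n → Kb) : Fin (mk N (lev N n)) → Kb := fun a => z (Sum.inr (Sum.inr (Sum.inr a)))

/-- the section with coordinate vector `φ` -/
noncomputable def sect (k : ℕ) (φ : Fin (mk N k) → Kb) : FN N := ∑ a, φ a • (bas N k a : FN N)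

/-- the point of `K^Var` with given components -/
def mkz (x x' : Fin d → Fin (mk N (mu0 N)) → Kb) (φ₁ φ₂ : Fin (mk N (lev N n)) → Kb) : Var N d n → Kb
  | Sum.inl (j, i) => x j i
  | Sum.inr (Sum.inl (j, i)) => x' j i
  | Sum.inr (Sum.inr (Sum.inl a)) => φ₁ a
  | Sum.inr (Sum.inr (Sum.inr a)) => φ₂ a

@[simp] theorem X_mkz (x x' : Fin d → Fin (mk N (mu0 N)) → Kb) (φ₁ φ₂ : Fin (mk N (lev N n)) → Kb) :
    X (mkz x x' φ₁ φ₂) = x := rfl
@[simp] theorem X'_mkz (x x' : Fin d → Fin (mk N (mu0 N)) → Kb) (φ₁ φ₂ : Fin (mk N (lev N n)) → Kb) :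
    X' (mkz x x' φ₁ φ₂) = x' := rfl
@[simp] theorem phi1_mkz (x x' : Fin d → Fin (mk N (mu0 N)) → Kb) (φ₁ φ₂ : Fin (mk N (lev N n)) → Kb) :
    phi1 (mkz x x' φ₁ φ₂) = φ₁ := rfl
@[simp] theorem phi2_mkz (x x' : Fin d → Fin (mk N (mu0 N)) → Kb) (φ₁ φ₂ : Fin (mk N (lev N n)) → Kb) :
    phi2 (mkz x x' φ₁ φ₂) = φ₂ := rfl

/-- the tuple of vectors `(x_1, …, x_d, pt S_1, …, pt S_e)` -/
noncomputable def app (x : Fin d → Fin (mk N (mu0 N)) → Kb) (S : Fin e → Pl N) :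
    Fin (d + e) → Fin (mk N (mu0 N)) → Kb :=
  Fin.append x (fun i => pt N (mu0 N) (S i))

/-- the two families of sections of level `lev + lev` -/
noncomputable def col (Sp Sm : Fin e → Pl N) (z : Var N d (d + e) → Kb) :
    Gam N (d + e) (k0 N) ⊕ Gam N (d + e) (k0 N) → FN N
  | Sum.inl γ => sect (lev N (d + e)) (phi2 z) * famx (d + e) (k0 N) (app (X z) Sp) γ
  | Sum.inr γ => sect (lev N (d + e)) (phi1 z) * famx (d + e) (k0 N) (app (X' z) Sm) γ

/-- the matrix of coordinates of the two families -/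
noncomputable def MM (Sp Sm : Fin e → Pl N) (z : Var N d (d + e) → Kb) :
    Matrix (Fin (mk N (lev N (d + e) + lev N (d + e)))) (Gam N (d + e) (k0 N) ⊕ Gam N (d + e) (k0 N)) Kb :=
  fun r c => crd N (lev N (d + e) + lev N (d + e)) (col Sp Sm z c) r

/-- the incidence set -/
def VV (Sp Sm : Fin e → Pl N) : Set (Var N d (d + e) → Kb) :=
  {z | (∀ j, X z j ∈ Chat N) ∧ (∀ j, X' z j ∈ Chat N) ∧ (MM Sp Sm z).rank ≤ rho N (d + e)}

/-- the `2 × 2` minors of the pairs `(x_j, x'_j)` -/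
noncomputable def minor (α : Fin d × Fin (mk N (mu0 N)) × Fin (mk N (mu0 N))) (z : Var N d n → Kb) : Kb :=
  X z α.1 α.2.1 * X' z α.1 α.2.2 - X z α.1 α.2.2 * X' z α.1 α.2.1

theorem mkz_eta (z : Var N d n → Kb) : mkz (X z) (X' z) (phi1 z) (phi2 z) = z := by
  funext s
  rcases s with ⟨j, i⟩ | ⟨j, i⟩ | a | a <;> rfl

theorem degree_tdiv_sub_tdiv (P Q : Fin d → Pl N) : Divisor.degree (tdiv P - tdiv Q) = 0 := by
  simp [tdiv, map_sub, map_sum, deg_eq_one]

/-- the class `[∑ P_j - ∑ Q_j]` -/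
noncomputable def clsT (P Q : Fin d → Pl N) : JZero N := cls N (tdiv P - tdiv Q) (degree_tdiv_sub_tdiv P Q)

end H3

end Fermat.Agent.S17
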