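import Fermat.Agent.S17.H3.Defs
import Fermat.Agent.S13.Minkowski

/-!
# S17 / H3-Norm : normalisation of vectors at a valuation subring of `ℚ̄`, congruences for inertia elements
-/

set_option autoImplicit false
set_option linter.unusedSectionVars false

namespace Fermat.Agent.S17

namespace H3

/-- Every nonzero vector can be rescaled to be primitive at `O`
(take `i₀` with `O.valuation (t i₀)` maximal, `a = (t i₀)⁻¹`). -/
theorem exists_normalise (O : ValuationSubring Kb) {ι : Type*} [Finite ι] {t : ι → Kb} (ht : t ≠ 0) :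
    ∃ a : Kb, a ≠ 0 ∧ (∀ i, a * t i ∈ O) ∧ ∃ i, a * t i ∉ O.nonunits := by
  classical
  obtain ⟨j, hj⟩ : ∃ j, t j ≠ 0 := by
    by_contra h
    push Not at h
    exact ht (funext h)
  have : Nonempty ι := ⟨j⟩
  obtain ⟨i₀, hi₀⟩ := Finite.exists_max (fun i => O.valuation (t i))
  have hi₀0 : t i₀ ≠ 0 := by
    intro h
    have h1 := hi₀ j
    rw [h, map_zero] at h1
    exact hj ((map_eq_zero _).mp (le_antisymm h1 zero_le))
  refine ⟨(t i₀)⁻¹, inv_ne_zero hi₀0, fun i => ?_, i₀, ?_⟩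
  · rw [← O.valuation_le_one_iff, map_mul, map_inv₀]
    have hpos : O.valuation (t i₀) ≠ 0 := (map_ne_zero _).mpr hi₀0
    rw [inv_mul_le_iff₀ (zero_lt_iff.mpr hpos), mul_one]
    exact hi₀ i
  · rw [inv_mul_cancel₀ hi₀0, ValuationSubring.mem_nonunits_iff, map_one]
    exact lt_irrefl _

/-- (`σ z = z + (σ z - z)`, `S13.sub_mem_nonunits_of_mem_inertia`.) -/
theorem inertia_apply_mem {A : ValuationSubring Kb} {σ : Kb ≃ₐ[ℚ] Kb} (hσ : σ ∈ A.inertiaSubgroupIn ℚ)
    {z : Kb} (hz : z ∈ A) : σ z ∈ A := by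
  have h := Fermat.Agent.S13.sub_mem_nonunits_of_mem_inertia hσ hz
  have h1 : σ z - z ∈ A := A.nonunits_subset h
  have := A.add_mem _ _ h1 hz
  simpa using this

theorem inertia_apply_not_mem_nonunits {A : ValuationSubring Kb} {σ : Kb ≃ₐ[ℚ] Kb}
    (hσ : σ ∈ A.inertiaSubgroupIn ℚ) {z : Kb} (hz : z ∈ A) (hz' : z ∉ A.nonunits) : σ z ∉ A.nonunits := by
  intro h
  apply hz'
  have h1 := Fermat.Agent.S13.sub_mem_nonunits_of_mem_inertia hσ hz
  rw [ValuationSubring.mem_nonunits_iff] at h h1 ⊢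
  have h2 : z = σ z - (σ z - z) := by ring
  rw [h2]
  exact lt_of_le_of_lt (Valuation.map_sub _ _ _) (max_lt h h1)

/-- `x σ(y) - y σ(x) = x (σ y - y) - y (σ x - x) ∈ 𝔪`. -/
theorem inertia_minor_mem_nonunits {A : ValuationSubring Kb} {σ : Kb ≃ₐ[ℚ] Kb}
    (hσ : σ ∈ A.inertiaSubgroupIn ℚ) {x y : Kb} (hx : x ∈ A) (hy : y ∈ A) :
    x * σ y - y * σ x ∈ A.nonunits := by
  have h1 := Fermat.Agent.S13.sub_mem_nonunits_of_mem_inertia hσ hx
  have h2 := Fermat.Agent.S13.sub_mem_nonunits_of_mem_inertia hσ hy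
  rw [ValuationSubring.mem_nonunits_iff] at h1 h2 ⊢
  rw [← A.valuation_le_one_iff] at hx hy
  have h3 : x * σ y - y * σ x = x * (σ y - y) - y * (σ x - x) := by ring
  rw [h3]
  refine lt_of_le_of_lt (Valuation.map_sub _ _ _) (max_lt ?_ ?_)
  · rw [map_mul]
    exact lt_of_le_of_lt (mul_le_of_le_one_left' hx) h2
  · rw [map_mul]
    exact lt_of_le_of_lt (mul_le_of_le_one_left' hy) h1

/-- two nonzero vectors all of whose `2 × 2` minors vanish are proportional -/
theorem exists_smul_eq_of_minors {ι : Type*} {x y : ι → Kb} (hy : y ≠ 0)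
    (h : ∀ i k, x i * y k - x k * y i = 0) : ∃ c : Kb, x = c • y := by
  obtain ⟨j, hj⟩ : ∃ j, y j ≠ 0 := by
    by_contra h
    push Not at h
    exact hy (funext h)
  refine ⟨x j / y j, funext fun i => ?_⟩
  have := h i j
  rw [Pi.smul_apply, smul_eq_mul]
  field_simp
  linear_combination this

end H3

end Fermat.Agent.S17
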