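import Fermat.Agent.S17.H3.Defs

/-!
# S17 / H3-Poly : the incidence set `VV` is Zariski closed
-/

set_option autoImplicit false
set_option linter.unusedSectionVars false

open AlgebraicCurve ModularCurve IntermediateField

namespace Fermat.Agent.S17

open FF

namespace H3

variable {N : ℕ} [NeZero N] {d e n : ℕ}

/-- A family of sections of level `k` depending polynomially on parameters. -/
def IsPolySec {σ : Type*} (k : ℕ) (f : (σ → Kb) → FN N) : Prop :=
  (∀ z, f z ∈ Lk N k) ∧ ∀ r, IsPoly fun z => crd N k (f z) r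

variable {σ : Type*}

namespace Poly

theorem crd_finset_sum {ι : Type*} (k : ℕ) (s : Finset ι) (f : ι → FN N)
    (hf : ∀ i ∈ s, f i ∈ Lk N k) : crd N k (∑ i ∈ s, f i) = ∑ i ∈ s, crd N k (f i) := by
  classical
  induction s using Finset.induction_on with
  | empty => simpa using crd_zero (N := N) k
  | insert a s ha ih =>
    rw [Finset.sum_insert ha, Finset.sum_insert ha,
      crd_add (hf a (Finset.mem_insert_self a s))
        (Submodule.sum_mem _ fun i hi => hf i (Finset.mem_insert_of_mem hi)),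
      ih fun i hi => hf i (Finset.mem_insert_of_mem hi)]

end Poly

theorem IsPolySec.const {k : ℕ} {f : FN N} (hf : f ∈ Lk N k) : IsPolySec k (fun _ : σ → Kb => f) :=
  ⟨fun _ => hf, fun _ => IsPoly.const _⟩

theorem IsPolySec.smul {k : ℕ} {a : (σ → Kb) → Kb} {f : (σ → Kb) → FN N} (ha : IsPoly a)
    (hf : IsPolySec k f) : IsPolySec k (fun z => a z • f z) := by
  refine ⟨fun z => Submodule.smul_mem _ _ (hf.1 z), fun r => ?_⟩
  simp only [crd_smul, Pi.smul_apply, smul_eq_mul]
  exact ha.mul (hf.2 r)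

theorem IsPolySec.sub {k : ℕ} {f g : (σ → Kb) → FN N} (hf : IsPolySec k f) (hg : IsPolySec k g) :
    IsPolySec k (fun z => f z - g z) := by
  refine ⟨fun z => Submodule.sub_mem _ (hf.1 z) (hg.1 z), fun r => ?_⟩
  have key : ∀ z, crd N k (f z - g z) r = crd N k (f z) r - crd N k (g z) r := by
    intro z
    have h1 : f z - g z = f z + (-1 : Kb) • g z := by rw [neg_one_smul, sub_eq_add_neg]
    rw [h1, crd_add (hf.1 z) (Submodule.smul_mem _ _ (hg.1 z)), crd_smul]
    simp [sub_eq_add_neg]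
  simp only [key]
  exact (hf.2 r).sub (hg.2 r)

theorem IsPolySec.sum {k : ℕ} {ι : Type*} (s : Finset ι) {f : ι → (σ → Kb) → FN N}
    (hf : ∀ i ∈ s, IsPolySec k (f i)) : IsPolySec k (fun z => ∑ i ∈ s, f i z) := by
  refine ⟨fun z => Submodule.sum_mem _ fun i hi => (hf i hi).1 z, fun r => ?_⟩
  have key : ∀ z, crd N k (∑ i ∈ s, f i z) r = ∑ i ∈ s, crd N k (f i z) r := by
    intro z
    rw [Poly.crd_finset_sum k s _ fun i hi => (hf i hi).1 z, Finset.sum_apply]
  simp only [key]
  exact IsPoly.sum _ fun i hi => (hf i hi).2 r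

/-- structure constants: `crd (k+k') (f g) r = ∑_{a,b} crd k f a * crd k' g b * crd (k+k') (b_a b'_b) r`. -/
theorem IsPolySec.mul {k k' : ℕ} {f g : (σ → Kb) → FN N} (hf : IsPolySec k f) (hg : IsPolySec k' g) :
    IsPolySec (k + k') (fun z => f z * g z) := by
  refine ⟨fun x => mul_mem_Lk (hf.1 x) (hg.1 x), fun l => ?_⟩
  have key : ∀ x, crd N (k + k') (f x * g x) l =
      ∑ i, ∑ j, (crd N k (f x) i * crd N k' (g x) j) *
        crd N (k + k') ((bas N k i : FN N) * (bas N k' j : FN N)) l := by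
    intro x
    have h1 : f x * g x = ∑ i, ∑ j, (crd N k (f x) i * crd N k' (g x) j) •
        ((bas N k i : FN N) * (bas N k' j : FN N)) := by
      conv_lhs => rw [eq_sum_crd (hf.1 x), eq_sum_crd (hg.1 x)]
      rw [Finset.sum_mul_sum]
      refine Finset.sum_congr rfl fun i _ => Finset.sum_congr rfl fun j _ => ?_
      rw [smul_mul_smul_comm]
    have hmem : ∀ i j, (crd N k (f x) i * crd N k' (g x) j) •
        ((bas N k i : FN N) * (bas N k' j : FN N)) ∈ Lk N (k + k') := fun i j =>
      Submodule.smul_mem _ _ (mul_mem_Lk (bas N k i).2 (bas N k' j).2)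
    rw [h1, Poly.crd_finset_sum _ _ _ fun i _ => Submodule.sum_mem _ fun j _ => hmem i j,
      Finset.sum_apply]
    refine Finset.sum_congr rfl fun i _ => ?_
    rw [Poly.crd_finset_sum _ _ _ fun j _ => hmem i j, Finset.sum_apply]
    refine Finset.sum_congr rfl fun j _ => ?_
    rw [crd_smul, Pi.smul_apply, smul_eq_mul]
  simp only [key]
  exact IsPoly.sum _ fun i _ => IsPoly.sum _ fun j _ =>
    ((hf.2 i).mul (hg.2 j)).mul (IsPoly.const _)

theorem IsPolySec.congr_level {k k' : ℕ} (h : k = k') {f : (σ → Kb) → FN N} (hf : IsPolySec k f) :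
    IsPolySec k' f := h ▸ hf

/-- product of `n` sections of level `k` -/
theorem IsPolySec.prod {k : ℕ} {f : Fin n → (σ → Kb) → FN N} (hf : ∀ j, IsPolySec k (f j)) :
    IsPolySec (n * k) (fun z => ∏ j, f j z) := by
  classical
  have gen : ∀ s : Finset (Fin n), IsPolySec (s.card * k) (fun z => ∏ j ∈ s, f j z) := by
    intro s
    induction s using Finset.induction_on with
    | empty => simpa using IsPolySec.const (σ := σ) (one_mem_Lk (N := N) 0)
    | insert a s ha ih =>
      have h1 := (hf a).mul ih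
      simp only [Finset.prod_insert ha]
      refine h1.congr_level ?_
      rw [Finset.card_insert_of_notMem ha]
      ring
  have := gen Finset.univ
  rwa [Finset.card_univ, Fintype.card_fin] at this

theorem isPolySec_secx {x : (σ → Kb) → Fin (mk N (mu0 N)) → Kb} (hx : ∀ i, IsPoly fun z => x z i)
    (ik : Fin (mk N (mu0 N)) × Fin (mk N (mu0 N))) : IsPolySec (mu0 N) (fun z => secx N (x z) ik) :=
  ((IsPolySec.const (bas N (mu0 N) ik.2).2).smul (hx ik.1)).sub
    ((IsPolySec.const (bas N (mu0 N) ik.1).2).smul (hx ik.2))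

theorem isPolySec_famx {x : (σ → Kb) → Fin n → Fin (mk N (mu0 N)) → Kb} (hx : ∀ j i, IsPoly fun z => x z j i)
    (γ : Gam N n (k0 N)) : IsPolySec (lev N n) (fun z => famx n (k0 N) (x z) γ) :=
  (IsPolySec.prod fun j => isPolySec_secx (hx j) (γ.1 j)).mul (IsPolySec.const (bas N (k0 N) γ.2).2)

theorem isPolySec_sect {k : ℕ} {φ : (σ → Kb) → Fin (mk N k) → Kb} (hφ : ∀ a, IsPoly fun z => φ z a) :
    IsPolySec k (fun z => sect k (φ z)) :=
  IsPolySec.sum _ fun a _ => (IsPolySec.const (bas N k a).2).smul (hφ a)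

theorem isPolySec_col (Sp Sm : Fin e → Pl N) (c : Gam N (d + e) (k0 N) ⊕ Gam N (d + e) (k0 N)) :
    IsPolySec (lev N (d + e) + lev N (d + e)) (fun z : Var N d (d + e) → Kb => col Sp Sm z c) := by
  have happ : ∀ (S : Fin e → Pl N) (x : (Var N d (d + e) → Kb) → Fin d → Fin (mk N (mu0 N)) → Kb),
      (∀ j i, IsPoly fun z => x z j i) → ∀ j i, IsPoly fun z => app (x z) S j i := by
    intro S x hx j i
    refine Fin.addCases (fun j' => ?_) (fun j' => ?_) j
    · simp only [app, Fin.append_left]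
      exact hx j' i
    · simp only [app, Fin.append_right]
      exact IsPoly.const _
  rcases c with γ | γ
  · exact (isPolySec_sect fun a => IsPoly.coord _).mul
      (isPolySec_famx (happ Sp _ fun j i => IsPoly.coord _) γ)
  · exact (isPolySec_sect fun a => IsPoly.coord _).mul
      (isPolySec_famx (happ Sm _ fun j i => IsPoly.coord _) γ)

theorem isPoly_MM (Sp Sm : Fin e → Pl N) (r : Fin (mk N (lev N (d + e) + lev N (d + e))))
    (c : Gam N (d + e) (k0 N) ⊕ Gam N (d + e) (k0 N)) :
    IsPoly fun z : Var N d (d + e) → Kb => MM Sp Sm z r c :=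
  (isPolySec_col Sp Sm c).2 r

theorem isPoly_minor (α : Fin d × Fin (mk N (mu0 N)) × Fin (mk N (mu0 N))) :
    IsPoly (minor α : (Var N d n → Kb) → Kb) :=
  ((IsPoly.coord _).mul (IsPoly.coord _)).sub ((IsPoly.coord _).mul (IsPoly.coord _))

/-- `{z | rank M(z) ≤ ρ}` is closed: all `(ρ+1)`-minors vanish (`le_rank_iff_exists_minor`, `IsPoly.det`). -/
theorem isZClosed_rank_le {m' n' : Type*} [Fintype m'] [Fintype n'] (M : (σ → Kb) → Matrix m' n' Kb)
    (hM : ∀ i j, IsPoly fun z => M z i j) (ρ : ℕ) : IsZClosed {z | (M z).rank ≤ ρ} := by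
  have h : {z | (M z).rank ≤ ρ} =
      ⋂ (fg : (Fin (ρ + 1) → m') × (Fin (ρ + 1) → n')), {z | ((M z).submatrix fg.1 fg.2).det = 0} := by
    ext z
    simp only [Set.mem_ofPred_eq, Set.mem_iInter]
    constructor
    · intro hz fg
      by_contra hne
      have := (le_rank_iff_exists_minor (M z) (ρ + 1)).mpr ⟨fg.1, fg.2, hne⟩
      omega
    · intro hz
      by_contra hlt
      obtain ⟨f, g, hfg⟩ := (le_rank_iff_exists_minor (M z) (ρ + 1)).mp (by omega)
      exact hfg (hz (f, g))
  rw [h]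
  exact IsZClosed.iInter fun fg => IsZClosed.setOf_eq_zero
    (IsPoly.det (M := fun z => (M z).submatrix fg.1 fg.2) fun i j => hM _ _)

/-- (`isZClosed_Chat`, `IsZClosed.preimage`, `IsZClosed.iInter`, `IsZClosed.inter`, `isZClosed_rank_le`.) -/
theorem isZClosed_VV (Sp Sm : Fin e → Pl N) : IsZClosed (VV Sp Sm : Set (Var N d (d + e) → Kb)) := by
  have h : (VV Sp Sm : Set (Var N d (d + e) → Kb)) =
      (⋂ j, (fun z => X z j) ⁻¹' Chat N) ∩ ((⋂ j, (fun z => X' z j) ⁻¹' Chat N) ∩
        {z | (MM Sp Sm z).rank ≤ rho N (d + e)}) := by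
    ext z
    simp [VV]
  rw [h]
  exact (IsZClosed.iInter fun j => isZClosed_Chat.preimage fun t => IsPoly.coord _).inter
    ((IsZClosed.iInter fun j => isZClosed_Chat.preimage fun t => IsPoly.coord _).inter
      (isZClosed_rank_le _ (fun r c => isPoly_MM Sp Sm r c) _))

end H3

end Fermat.Agent.S17
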