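import Fermat.Agent.S17.H3.Rank
import Fermat.Agent.S17.H3.Poly
import Fermat.Agent.S17.H3.Norm

/-!
# S17 / H3 : unramifiedness outside a finite set of primes (assembly)
-/

set_option autoImplicit false
set_option linter.unusedSectionVars false

open AlgebraicCurve ModularCurve IntermediateField

namespace Fermat.Agent.S17

open FF

namespace H3

variable {N : ℕ} [NeZero N] {d e : ℕ}

theorem X_ne_zero {n : ℕ} {z : Var N d n → Kb} (hz : BlocksNe blk z) (j : Fin d) : X z j ≠ 0 := by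
  obtain ⟨s, hs, hne⟩ := hz (Sum.inl j)
  rcases s with ⟨j', i⟩ | ⟨j', i⟩ | a | a
  · have : j' = j := by simpa [blk] using hs
    subst this
    exact fun h => hne (congrFun h i)
  all_goals simp [blk] at hs

theorem X'_ne_zero {n : ℕ} {z : Var N d n → Kb} (hz : BlocksNe blk z) (j : Fin d) : X' z j ≠ 0 := by
  obtain ⟨s, hs, hne⟩ := hz (Sum.inr (Sum.inl j))
  rcases s with ⟨j', i⟩ | ⟨j', i⟩ | a | a
  · simp [blk] at hs
  · have : j' = j := by simpa [blk] using hs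
    subst this
    exact fun h => hne (congrFun h i)
  all_goals simp [blk] at hs

theorem phi1_ne_zero {n : ℕ} {z : Var N d n → Kb} (hz : BlocksNe blk z) : phi1 z ≠ 0 := by
  obtain ⟨s, hs, hne⟩ := hz (Sum.inr (Sum.inr (Sum.inl ())))
  rcases s with ⟨j', i⟩ | ⟨j', i⟩ | a | a
  · simp [blk] at hs
  · simp [blk] at hs
  · exact fun h => hne (congrFun h a)
  · simp [blk] at hs

theorem phi2_ne_zero {n : ℕ} {z : Var N d n → Kb} (hz : BlocksNe blk z) : phi2 z ≠ 0 := by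
  obtain ⟨s, hs, hne⟩ := hz (Sum.inr (Sum.inr (Sum.inr ())))
  rcases s with ⟨j', i⟩ | ⟨j', i⟩ | a | a
  · simp [blk] at hs
  · simp [blk] at hs
  · simp [blk] at hs
  · exact fun h => hne (congrFun h a)

/-- the `2 × 2` minors have no common zero on the incidence set (all blocks nonzero). -/
theorem exists_minor_ne_zero (Sp Sm : Fin e → Pl N) (hS : ¬ LinEq (tdiv Sp) (tdiv Sm)) :
    ∀ z ∈ (VV Sp Sm : Set (Var N d (d + e) → Kb)), BlocksNe blk z → ∃ α, minor α z ≠ 0 := by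
  intro z hz hne
  by_contra hcon
  have hmin : ∀ α, minor α z = 0 := by
    intro α
    by_contra h
    exact hcon ⟨α, h⟩
  obtain ⟨hX, hX', hr⟩ := hz
  have h1 : ∀ j, ∃ (P : Pl N) (c : Kb), c ≠ 0 ∧ X z j = c • pt N (mu0 N) P :=
    fun j => exists_of_mem_Chat (hX j) (X_ne_zero hne j)
  have h2 : ∀ j, ∃ (P : Pl N) (c : Kb), c ≠ 0 ∧ X' z j = c • pt N (mu0 N) P :=
    fun j => exists_of_mem_Chat (hX' j) (X'_ne_zero hne j)
  choose P c hc hP using h1
  choose P' c' hc' hP' using h2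
  have hPP : P = P' := by
    funext j
    obtain ⟨a, ha⟩ := exists_smul_eq_of_minors (x := X z j) (y := X' z j) (X'_ne_zero hne j)
      (fun i k => hmin (j, i, k))
    rw [hP j, hP' j] at ha
    refine pt_injective (k := mu0 N) rc_add_two_le_mu0 (c := (c j)⁻¹ * (a * c' j)) ?_
    have : pt N (mu0 N) (P j) = (c j)⁻¹ • (c j • pt N (mu0 N) (P j)) := by
      rw [smul_smul, inv_mul_cancel₀ (hc j), one_smul]
    rw [this, ha, smul_smul, smul_smul, mul_assoc]
  subst hPP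
  have hz' : z = mkz (fun j => c j • pt N (mu0 N) (P j)) (fun j => c' j • pt N (mu0 N) (P j))
      (phi1 z) (phi2 z) := by
    conv_lhs => rw [← mkz_eta z]
    congr 1
    · funext j; exact hP j
    · funext j; exact hP' j
  rw [hz'] at hr
  have := linEq_of_rank_le Sp Sm P P c c' hc hc' (phi1 z) (phi2 z) (phi1_ne_zero hne)
    (phi2_ne_zero hne) hr
  exact hS ((linEq_add_left_iff _ _ _).mp this)

/-- for a fixed nonzero class `[∑ Sp - ∑ Sm]`: outside a finite set of primes it is not of the form `σ y - y`, `σ` in inertia. -/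
theorem exists_finset_not_linEq (d : ℕ) (Sp Sm : Fin e → Pl N) (hS : ¬ LinEq (tdiv Sp) (tdiv Sm)) :
    ∃ S : Finset ℕ, ∀ p : ℕ, p.Prime → p ∉ S → ∀ A : ValuationSubring Kb, A.LiesOverPrime p →
      ∀ σ ∈ A.inertiaSubgroupIn ℚ, ∀ P : Fin d → Pl N,
        ¬ LinEq (tdiv P + tdiv Sp) (tdiv (fun j => gal Kb N σ • P j) + tdiv Sm) := by
  obtain ⟨S, hS'⟩ := exists_finset_not_all_nonunits (blk : Var N d (d + e) → Blk d)
    (isZClosed_VV Sp Sm) (fun α => minor α) (fun α => isPoly_minor α) (exists_minor_ne_zero Sp Sm hS)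
  refine ⟨S, fun p hp hpS A hA σ hσ P hlin => ?_⟩
  obtain ⟨φ₁, φ₂, hφ₁, hφ₂, hrank⟩ := exists_rank_le Sp Sm P _ hlin
  have hpt : ∀ j, pt N (mu0 N) (P j) ≠ 0 := fun j =>
    pt_ne_zero (by have := rc_add_two_le_mu0 (N := N); omega) (P j)
  have hn : ∀ j, ∃ a : Kb, a ≠ 0 ∧ (∀ i, a * pt N (mu0 N) (P j) i ∈ A) ∧
      ∃ i, a * pt N (mu0 N) (P j) i ∉ A.nonunits := fun j => exists_normalise A (hpt j)
  choose a ha0 haA haU using hn
  obtain ⟨b₁, hb₁0, hb₁A, i₁, hb₁U⟩ := exists_normalise A hφ₁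
  obtain ⟨b₂, hb₂0, hb₂A, i₂, hb₂U⟩ := exists_normalise A hφ₂
  set z : Var N d (d + e) → Kb := mkz (fun j => a j • pt N (mu0 N) (P j))
    (fun j => σ (a j) • pt N (mu0 N) (gal Kb N σ • P j)) (b₁ • φ₁) (b₂ • φ₂) with hz
  have hx' : ∀ j i, (σ (a j) • pt N (mu0 N) (gal Kb N σ • P j)) i = σ (a j * pt N (mu0 N) (P j) i) := by
    intro j i
    rw [Pi.smul_apply, pt_gal, smul_eq_mul, map_mul]
  have hzV : z ∈ (VV Sp Sm : Set (Var N d (d + e) → Kb)) :=
    ⟨fun j => smul_pt_mem_Chat _ _, fun j => smul_pt_mem_Chat _ _, hrank _ _ _ _⟩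
  obtain ⟨α, hα⟩ := hS' p hp hpS A hA z hzV
    (by
      rintro (⟨j, i⟩ | ⟨j, i⟩ | t | t)
      · exact haA j i
      · show (σ (a j) • pt N (mu0 N) (gal Kb N σ • P j)) i ∈ A
        rw [hx']
        exact inertia_apply_mem hσ (haA j i)
      · exact hb₁A t
      · exact hb₂A t)
    (by
      rintro (j | j | ⟨⟩ | ⟨⟩)
      · obtain ⟨i, hi⟩ := haU j
        exact ⟨Sum.inl (j, i), rfl, hi⟩
      · obtain ⟨i, hi⟩ := haU j
        refine ⟨Sum.inr (Sum.inl (j, i)), rfl, ?_⟩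
        show (σ (a j) • pt N (mu0 N) (gal Kb N σ • P j)) i ∉ A.nonunits
        rw [hx']
        exact inertia_apply_not_mem_nonunits hσ (haA j i) hi
      · exact ⟨Sum.inr (Sum.inr (Sum.inl i₁)), rfl, hb₁U⟩
      · exact ⟨Sum.inr (Sum.inr (Sum.inr i₂)), rfl, hb₂U⟩)
  apply hα
  obtain ⟨j, i, k⟩ := α
  show (a j • pt N (mu0 N) (P j)) i * (σ (a j) • pt N (mu0 N) (gal Kb N σ • P j)) k -
    (a j • pt N (mu0 N) (P j)) k * (σ (a j) • pt N (mu0 N) (gal Kb N σ • P j)) i ∈ A.nonunits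
  rw [hx', hx']
  exact inertia_minor_mem_nonunits hσ (haA j i) (haA j k)

/-- **hunr**: the geometric hypothesis of `weakMW`. -/
theorem exists_hunr (h2fin : {y : JZero N | 2 • y = 0}.Finite) :
    ∃ S : Finset ℕ, ∀ p : ℕ, p.Prime → p ∉ S → ∀ A : ValuationSubring Kb, A.LiesOverPrime p →
      ∀ σ ∈ A.inertiaSubgroupIn ℚ, ∀ y : JZero N, 2 • (σ • y - y) = 0 → σ • y = y := by
  classical
  have key : ∀ s : JZero N, ∃ S : Finset ℕ, s ≠ 0 → ∀ p : ℕ, p.Prime → p ∉ S →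
      ∀ A : ValuationSubring Kb, A.LiesOverPrime p → ∀ σ ∈ A.inertiaSubgroupIn ℚ, ∀ y : JZero N,
        σ • y - y ≠ s := by
    intro s
    by_cases hs : s = 0
    · exact ⟨∅, fun h => absurd hs h⟩
    obtain ⟨Sp, hSp⟩ := exists_rep s
    have hS : ¬ LinEq (tdiv Sp) (tdiv fun _ : Fin (genus Kb (FN N)) => oo N) := by
      intro h
      exact hs (hSp.trans ((clsT_eq_zero_iff _ _).mpr h))
    obtain ⟨S, hS'⟩ := exists_finset_not_linEq (genus Kb (FN N)) Sp _ hS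
    refine ⟨S, fun _ p hp hpS A hA σ hσ y hy => ?_⟩
    obtain ⟨P, rfl⟩ := exists_rep y
    rw [gal_smul_clsT, hSp] at hy
    simp only [gal_smul_infP] at hy
    exact hS' p hp hpS A hA σ hσ P ((clsT_sub_clsT_eq_iff _ _ _ _ _).mp hy)
  choose S hS using key
  refine ⟨h2fin.toFinset.biUnion S, fun p hp hpS A hA σ hσ y hy => ?_⟩
  by_contra hne
  have hs0 : σ • y - y ≠ 0 := fun h => hne (sub_eq_zero.mp h)
  exact hS (σ • y - y) hs0 p hp
    (fun hmem => hpS (Finset.mem_biUnion.mpr ⟨_, h2fin.mem_toFinset.mpr hy, hmem⟩)) A hA σ hσ y rfl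

end H3

end Fermat.Agent.S17
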