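import Fermat.Agent.S17.H3.Rep

/-!
# S17 / H3-RankB : general facts on `L(D)` and coordinate matrices

Notation: `n = d + e`, `k = lev N n`, `W(Q) = L(k∞ - ∑_{j<n} Q_j)` for an `n`-tuple `Q`, `dim W(Q) = rho N n` (Riemann).
For `Φ ∈ L_k`, `Φ ≠ 0`:  `Φ * W(Q) = L(2k∞ - ∑ Q_j - div0 Φ)`.
-/

set_option autoImplicit false
set_option linter.unusedSectionVars false

open AlgebraicCurve ModularCurve IntermediateField

namespace Fermat.Agent.S17

open FF

namespace H3

variable {N : ℕ} [NeZero N] {d e n : ℕ}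

/-! ### part (b): general facts on `L(D)` -/

/-- multiplication by `Φ ≠ 0` maps `L(A)` onto `L(A - div Φ)`. -/
theorem map_mul_LSp {Φ : FN N} (hΦ : Φ ≠ 0) (A : Dv N) :
    (LSp A).map (LinearMap.mulLeft Kb Φ) = LSp (A - divf Φ) := by
  have key : ∀ y : FN N, y ∈ LSp A ↔ y * Φ ∈ LSp (A - divf Φ) := by
    intro y
    have := mem_LSp_add_divf (D := A - divf Φ) (f := y) hΦ
    rwa [sub_add_cancel] at this
  ext x
  rw [Submodule.mem_map]
  constructor
  · rintro ⟨y, hy, rfl⟩
    rw [LinearMap.mulLeft_apply, mul_comm]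
    exact (key y).mp hy
  · intro hx
    refine ⟨x * Φ⁻¹, (key _).mpr ?_, ?_⟩
    · rwa [mul_assoc, inv_mul_cancel₀ hΦ, mul_one]
    · rw [LinearMap.mulLeft_apply, mul_comm, mul_assoc, inv_mul_cancel₀ hΦ, mul_one]

namespace RankB

theorem le_of_LSp_le {A B : Dv N} (hA : rc Kb (FN N) + 1 ≤ Divisor.degree A)
    (h : LSp A ≤ LSp B) : A ≤ B := by
  intro v
  obtain ⟨f, hf, hf0, hord⟩ := exists_mem_LSp_ord_eq hA {v}
  have h1 := hord v (Finset.mem_singleton_self v)
  rcases mem_LSp.mp (h hf) with h2 | h2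
  · exact absurd h2 hf0
  · have := h2 v
    omega

end RankB

/-- `L(A)` determines `A` in large degree (`exists_mem_LSp_ord_eq` with `T = {v}`). -/
theorem eq_of_LSp_eq {A B : Dv N} (hA : rc Kb (FN N) + 1 ≤ Divisor.degree A)
    (hB : rc Kb (FN N) + 1 ≤ Divisor.degree B) (h : LSp A = LSp B) : A = B :=
  le_antisymm (RankB.le_of_LSp_le hA h.le) (RankB.le_of_LSp_le hB h.ge)

set_option synthInstance.maxHeartbeats 200000 in
/-- the rank of the coordinate matrix of a family of sections is the dimension of its span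
(`crd` is a linear isomorphism `L_k ≃ K^m`; `Matrix.rank_eq_finrank_span_cols`). -/
theorem rank_crd {k : ℕ} {ι : Type*} [Fintype ι] (f : ι → FN N) (hf : ∀ i, f i ∈ Lk N k) :
    (Matrix.of fun r c => crd N k (f c) r : Matrix (Fin (mk N k)) ι Kb).rank =
      Module.finrank Kb (Submodule.span Kb (Set.range f)) := by
  let f' : ι → Lk N k := fun i => ⟨f i, hf i⟩
  let e : Lk N k ≃ₗ[Kb] (Fin (mk N k) → Kb) := (bas N k).equivFun
  have h1 : Submodule.span Kb (Set.range f) =
      (Submodule.span Kb (Set.range f')).map (Lk N k).subtype := by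
    rw [Submodule.map_span, ← Set.range_comp]
    rfl
  have h2 : Submodule.span Kb (Set.range
      (Matrix.of fun r c => crd N k (f c) r : Matrix (Fin (mk N k)) ι Kb).col) =
      (Submodule.span Kb (Set.range f')).map (e : Lk N k →ₗ[Kb] (Fin (mk N k) → Kb)) := by
    rw [Submodule.map_span, ← Set.range_comp]
    congr 2
    funext c
    funext r
    show crd N k (f c) r = (bas N k).repr ⟨f c, hf c⟩ r
    rw [crd, dif_pos (hf c)]
  rw [Matrix.rank_eq_finrank_span_cols, h2, h1, LinearEquiv.finrank_map_eq,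
    Submodule.finrank_map_subtype_eq]

end H3

end Fermat.Agent.S17
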