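import Fermat.Agent.S17.H3.RankA
import Fermat.Agent.S17.H3.RankB

/-!
# S17 / H3-Rank : the rank condition is linear equivalence

Notation: `n = d + e`, `k = lev N n`, `W(Q) = L(k∞ - ∑_{j<n} Q_j)` for an `n`-tuple `Q`, `dim W(Q) = rho N n` (Riemann).
For `Φ ∈ L_k`, `Φ ≠ 0`:  `Φ * W(Q) = L(2k∞ - ∑ Q_j - div0 Φ)`.
-/

set_option autoImplicit false
set_option linter.unusedSectionVars false

open AlgebraicCurve ModularCurve IntermediateField
open scoped Pointwise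

namespace Fermat.Agent.S17

open FF

namespace H3

variable {N : ℕ} [NeZero N] {d e n : ℕ}

namespace Rank

/-- the span of one half of the columns -/
theorem span_half (S : Fin e → Pl N) (P : Fin d → Pl N) (c : Fin d → Kb) (hc : ∀ j, c j ≠ 0) (Φ : FN N) :
    Submodule.span Kb (Set.range fun γ : Gam N (d + e) (k0 N) =>
      Φ * famx (d + e) (k0 N) (app (fun j => c j • pt N (mu0 N) (P j)) S) γ) =
      (LSp (koo N (lev N (d + e)) - (tdiv P + tdiv S))).map (LinearMap.mulLeft Kb Φ) := by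
  have hC : IsUnit (∏ j, c j) := (Finset.prod_ne_zero_iff.mpr fun j _ => hc j).isUnit
  have h1 : (Set.range fun γ : Gam N (d + e) (k0 N) =>
      Φ * famx (d + e) (k0 N) (app (fun j => c j • pt N (mu0 N) (P j)) S) γ) =
      (LinearMap.mulLeft Kb Φ) '' ((∏ j, c j) • Set.range (fam (d + e) (k0 N) (Fin.append P S))) := by
    ext t
    simp only [Set.mem_range, Set.mem_image, Set.mem_smul_set]
    constructor
    · rintro ⟨γ, rfl⟩
      exact ⟨_, ⟨_, ⟨γ, rfl⟩, rfl⟩, by rw [famx_app]; rfl⟩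
    · rintro ⟨_, ⟨_, ⟨γ, rfl⟩, rfl⟩, rfl⟩
      exact ⟨γ, by rw [famx_app]; rfl⟩
  rw [h1, ← Submodule.map_span, Submodule.span_smul_eq_of_isUnit _ _ hC,
    span_fam (d + e) rc_add_mu0_le_k0, tdiv_append]
  rfl

theorem fam_mem (Q : Fin n → Pl N) (γ : Gam N n (k0 N)) :
    fam n (k0 N) Q γ ∈ LSp (koo N (lev N n) - tdiv Q) := by
  have := span_fam n (rc_add_mu0_le_k0 (N := N)) Q
  have h2 : fam n (k0 N) Q γ ∈ Submodule.span Kb (Set.range (fam n (k0 N) Q)) :=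
    Submodule.subset_span ⟨γ, rfl⟩
  rw [this] at h2
  exact h2

theorem col_mem (Sp Sm : Fin e → Pl N) (z : Var N d (d + e) → Kb)
    (c : Gam N (d + e) (k0 N) ⊕ Gam N (d + e) (k0 N)) :
    col Sp Sm z c ∈ Lk N (lev N (d + e) + lev N (d + e)) := by
  rcases c with γ | γ
  · exact mul_mem_Lk (sect_mem _ _) (famx_mem _ _)
  · exact mul_mem_Lk (sect_mem _ _) (famx_mem _ _)

theorem rank_MM (Sp Sm : Fin e → Pl N) (z : Var N d (d + e) → Kb) :
    (MM Sp Sm z).rank = Module.finrank Kb (Submodule.span Kb (Set.range (col Sp Sm z))) :=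
  rank_crd (col Sp Sm z) (col_mem Sp Sm z)

theorem finrank_map_mulLeft {Φ : FN N} (hΦ : Φ ≠ 0) (W : Submodule Kb (FN N)) :
    Module.finrank Kb (W.map (LinearMap.mulLeft Kb Φ)) = Module.finrank Kb W :=
  (Submodule.equivMapOfInjective (LinearMap.mulLeft Kb Φ)
    (fun _ _ h => mul_left_cancel₀ hΦ h) W).finrank_eq.symm

theorem finrank_LSp_add (P : Fin d → Pl N) (S : Fin e → Pl N) :
    Module.finrank Kb (LSp (koo N (lev N (d + e)) - (tdiv P + tdiv S))) = rho N (d + e) := by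
  rw [← tdiv_append]
  exact finrank_LSp_lev _

theorem degree_lev_sub (P : Fin d → Pl N) (S : Fin e → Pl N) :
    rc Kb (FN N) + 1 ≤ Divisor.degree (koo N (lev N (d + e)) - (tdiv P + tdiv S)) := by
  rw [map_sub, map_add, degree_koo, degree_tdiv, degree_tdiv]
  have h1 := rc_add_mu0_le_k0 (N := N)
  have h2 := rc_add_two_le_mu0 (N := N)
  have h3 := rc_nonneg (K := Kb) (F := FN N)
  have h4 : ((d + e : ℕ) : ℤ) * 1 ≤ ((d + e : ℕ) : ℤ) * (mu0 N : ℤ) :=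
    mul_le_mul_of_nonneg_left (by omega) (by positivity)
  unfold lev
  push_cast at h4 ⊢
  nlinarith

theorem rho_pos : 0 < rho N n := by
  obtain ⟨v⟩ : Nonempty (Pl N) := ⟨oo N⟩
  have h0 := finrank_LSp_lev (N := N) (n := n) (fun _ => v)
  have hdeg : rc Kb (FN N) + 1 ≤ Divisor.degree (koo N (lev N n) - tdiv fun _ : Fin n => v) := by
    rw [map_sub, degree_koo, degree_tdiv]
    have h1 := rc_add_mu0_le_k0 (N := N)
    have h2 := rc_add_two_le_mu0 (N := N)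
    have h3 := rc_nonneg (K := Kb) (F := FN N)
    have h4 : (n : ℤ) * 1 ≤ (n : ℤ) * (mu0 N : ℤ) :=
      mul_le_mul_of_nonneg_left (by omega) (by positivity)
    unfold lev
    push_cast
    nlinarith
  have h5 := ell_sub_pdiv hdeg v
  unfold ell at h5
  omega

end Rank

open Rank

/-! ### part (c): the two main statements -/

/-- the span of the columns -/
theorem span_col (Sp Sm : Fin e → Pl N) (P P' : Fin d → Pl N) (c c' : Fin d → Kb)
    (hc : ∀ j, c j ≠ 0) (hc' : ∀ j, c' j ≠ 0) (φ₁ φ₂ : Fin (mk N (lev N (d + e))) → Kb) :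
    Submodule.span Kb (Set.range (col Sp Sm (mkz (fun j => c j • pt N (mu0 N) (P j))
        (fun j => c' j • pt N (mu0 N) (P' j)) φ₁ φ₂))) =
      (LSp (koo N (lev N (d + e)) - (tdiv P + tdiv Sp))).map (LinearMap.mulLeft Kb (sect _ φ₂)) ⊔
      (LSp (koo N (lev N (d + e)) - (tdiv P' + tdiv Sm))).map (LinearMap.mulLeft Kb (sect _ φ₁)) := by
  rw [Sum.range_eq, Submodule.span_union, ← span_half Sp P c hc, ← span_half Sm P' c' hc']
  rfl

/-- rank `≤ ρ` implies linear equivalence.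
(The two summands of `span_col` have dimension `ρ`, so they coincide; `map_mul_LSp`, `eq_of_LSp_eq` give
`∑P + ∑Sp + div Φ₂ = ∑P' + ∑Sm + div Φ₁`.) -/
theorem linEq_of_rank_le (Sp Sm : Fin e → Pl N) (P P' : Fin d → Pl N) (c c' : Fin d → Kb)
    (hc : ∀ j, c j ≠ 0) (hc' : ∀ j, c' j ≠ 0) (φ₁ φ₂ : Fin (mk N (lev N (d + e))) → Kb)
    (h1 : φ₁ ≠ 0) (h2 : φ₂ ≠ 0)
    (hr : (MM Sp Sm (mkz (fun j => c j • pt N (mu0 N) (P j))
      (fun j => c' j • pt N (mu0 N) (P' j)) φ₁ φ₂)).rank ≤ rho N (d + e)) :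
    LinEq (tdiv P + tdiv Sp) (tdiv P' + tdiv Sm) := by
  have hΦ₁ : sect (lev N (d + e)) φ₁ ≠ 0 := fun h => h1 ((sect_eq_zero_iff _ _).mp h)
  have hΦ₂ : sect (lev N (d + e)) φ₂ ≠ 0 := fun h => h2 ((sect_eq_zero_iff _ _).mp h)
  rw [rank_MM, span_col Sp Sm P P' c c' hc hc'] at hr
  set W₁ := (LSp (koo N (lev N (d + e)) - (tdiv P + tdiv Sp))).map
    (LinearMap.mulLeft Kb (sect _ φ₂)) with hW₁
  set W₂ := (LSp (koo N (lev N (d + e)) - (tdiv P' + tdiv Sm))).map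
    (LinearMap.mulLeft Kb (sect _ φ₁)) with hW₂
  have hf₁ : Module.finrank Kb W₁ = rho N (d + e) := by
    rw [hW₁, finrank_map_mulLeft hΦ₂, finrank_LSp_add]
  have hf₂ : Module.finrank Kb W₂ = rho N (d + e) := by
    rw [hW₂, finrank_map_mulLeft hΦ₁, finrank_LSp_add]
  have e₁ : W₁ = W₁ ⊔ W₂ := Submodule.eq_of_le_of_finrank_le le_sup_left (by rw [hf₁]; exact hr)
  have e₂ : W₂ = W₁ ⊔ W₂ := Submodule.eq_of_le_of_finrank_le le_sup_right (by rw [hf₂]; exact hr)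
  have e₃ : W₁ = W₂ := e₁.trans e₂.symm
  rw [hW₁, hW₂, map_mul_LSp hΦ₂, map_mul_LSp hΦ₁] at e₃
  have e₄ := eq_of_LSp_eq
    (by rw [map_sub, degree_divf, sub_zero]; exact degree_lev_sub P Sp)
    (by rw [map_sub, degree_divf, sub_zero]; exact degree_lev_sub P' Sm) e₃
  refine isPrincipal_iff.mpr ⟨sect _ φ₁ * (sect _ φ₂)⁻¹, mul_ne_zero hΦ₁ (inv_ne_zero hΦ₂), ?_⟩
  rw [divf_mul hΦ₁ (inv_ne_zero hΦ₂), divf_inv]
  have e₅ : tdiv P + tdiv Sp + divf (sect (lev N (d + e)) φ₂) =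
      tdiv P' + tdiv Sm + divf (sect (lev N (d + e)) φ₁) := by
    have := congrArg (fun D => koo N (lev N (d + e)) - D) e₄
    simpa [sub_sub, sub_sub_cancel] using this
  rw [sub_eq_iff_eq_add]
  have : tdiv P + tdiv Sp = tdiv P' + tdiv Sm + divf (sect (lev N (d + e)) φ₁) -
      divf (sect (lev N (d + e)) φ₂) := eq_sub_of_add_eq e₅
  rw [this]
  abel

/-- linear equivalence gives points of the incidence set.
(`div f = (∑P + ∑Sp) - (∑P' + ∑Sm)`; `Φ₂ ≠ 0` in `L(k∞ - ∑P' - ∑Sm)` (dimension `ρ > 0`), `Φ₁ = f Φ₂ ∈ L(k∞ - ∑P - ∑Sp)`.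
All columns lie in `Φ₂ * L(k∞ - ∑P - ∑Sp) = Φ₁ * L(k∞ - ∑P' - ∑Sm)`, whatever the scalars are.) -/
theorem exists_rank_le (Sp Sm : Fin e → Pl N) (P P' : Fin d → Pl N)
    (h : LinEq (tdiv P + tdiv Sp) (tdiv P' + tdiv Sm)) :
    ∃ φ₁ φ₂ : Fin (mk N (lev N (d + e))) → Kb, φ₁ ≠ 0 ∧ φ₂ ≠ 0 ∧ ∀ (c c' : Fin d → Kb) (a₁ a₂ : Kb),
      (MM Sp Sm (mkz (fun j => c j • pt N (mu0 N) (P j))
        (fun j => c' j • pt N (mu0 N) (P' j)) (a₁ • φ₁) (a₂ • φ₂))).rank ≤ rho N (d + e) := by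
  obtain ⟨f, hf0, hf⟩ := isPrincipal_iff.mp h
  set A₁ : Dv N := koo N (lev N (d + e)) - (tdiv P + tdiv Sp) with hA₁
  set A₂ : Dv N := koo N (lev N (d + e)) - (tdiv P' + tdiv Sm) with hA₂
  have hA : A₂ = A₁ + divf f := by
    rw [hA₁, hA₂, ← hf]; abel
  -- multiplication by `f` maps `L(A₂)` into `L(A₁)`
  have hmul : ∀ t ∈ LSp A₂, t * f ∈ LSp A₁ := by
    intro t ht
    rw [hA] at ht
    exact (mem_LSp_add_divf hf0).mp ht
  have hpos : 0 < ell A₂ := by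
    unfold ell
    rw [hA₂, finrank_LSp_add]
    exact rho_pos
  obtain ⟨Φ₂, hΦ₂0, hΦ₂⟩ := Riemann.exists_ne_zero_mem_of_ell_pos hpos
  have hle : ∀ (Q : Fin d → Pl N) (S : Fin e → Pl N),
      LSp (koo N (lev N (d + e)) - (tdiv Q + tdiv S)) ≤ Lk N (lev N (d + e)) := by
    intro Q S
    refine LSp_mono (sub_le_self _ ?_)
    refine add_nonneg ?_ ?_ <;>
    · unfold tdiv
      exact Finset.sum_nonneg fun j _ => Finsupp.single_nonneg.mpr zero_le_one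
  obtain ⟨φ₂, hφ₂⟩ := exists_sect_eq (hle P' Sm hΦ₂)
  obtain ⟨φ₁, hφ₁⟩ := exists_sect_eq (hle P Sp (hmul Φ₂ hΦ₂))
  refine ⟨φ₁, φ₂, ?_, ?_, fun c c' a₁ a₂ => ?_⟩
  · rintro rfl
    have : sect (lev N (d + e)) (0 : Fin (mk N (lev N (d + e))) → Kb) = 0 :=
      (sect_eq_zero_iff _ _).mpr rfl
    rw [this] at hφ₁
    exact mul_ne_zero hΦ₂0 hf0 hφ₁.symm
  · rintro rfl
    have : sect (lev N (d + e)) (0 : Fin (mk N (lev N (d + e))) → Kb) = 0 :=
      (sect_eq_zero_iff _ _).mpr rfl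
    rw [this] at hφ₂
    exact hΦ₂0 hφ₂.symm
  rw [rank_MM]
  have hW : Module.finrank Kb ((LSp A₁).map (LinearMap.mulLeft Kb Φ₂)) = rho N (d + e) := by
    rw [finrank_map_mulLeft hΦ₂0, hA₁, finrank_LSp_add]
  rw [← hW]
  refine Submodule.finrank_mono (Submodule.span_le.mpr ?_)
  rintro _ ⟨γ | γ, rfl⟩
  · show sect _ (a₂ • φ₂) * famx (d + e) (k0 N) (app (fun j => c j • pt N (mu0 N) (P j)) Sp) γ ∈ _
    rw [sect_smul, hφ₂, famx_app]
    refine ⟨(a₂ * ∏ j, c j) • fam (d + e) (k0 N) (Fin.append P Sp) γ, ?_, ?_⟩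
    · refine Submodule.smul_mem _ _ ?_
      have := fam_mem (Fin.append P Sp) γ
      rwa [tdiv_append] at this
    · simp only [LinearMap.mulLeft_apply, mul_smul_comm, smul_mul_assoc, smul_smul]
      rw [mul_comm a₂]
  · show sect _ (a₁ • φ₁) * famx (d + e) (k0 N) (app (fun j => c' j • pt N (mu0 N) (P' j)) Sm) γ ∈ _
    rw [sect_smul, hφ₁, famx_app]
    refine ⟨(a₁ * ∏ j, c' j) • (fam (d + e) (k0 N) (Fin.append P' Sm) γ * f), ?_, ?_⟩
    · refine Submodule.smul_mem _ _ (hmul _ ?_)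
      have := fam_mem (Fin.append P' Sm) γ
      rwa [tdiv_append] at this
    · simp only [LinearMap.mulLeft_apply, mul_smul_comm, smul_mul_assoc, smul_smul]
      rw [mul_comm a₁, mul_assoc Φ₂ f, mul_comm f]

end H3

end Fermat.Agent.S17
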