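import Fermat.Agent.S17.H3.Rep

/-!
# S17 / H3-RankA : the spanning families (elementary API)

Notation: `n = d + e`, `k = lev N n`, `W(Q) = L(k∞ - ∑_{j<n} Q_j)` for an `n`-tuple `Q`, `dim W(Q) = rho N n` (Riemann).
For `Φ ∈ L_k`, `Φ ≠ 0`:  `Φ * W(Q) = L(2k∞ - ∑ Q_j - div0 Φ)`.
-/

set_option autoImplicit false
set_option linter.unusedSectionVars false

open AlgebraicCurve ModularCurve IntermediateField

namespace Fermat.Agent.S17

open FF

namespace H3

variable {N : ℕ} [NeZero N] {d e n : ℕ}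

/-! ### part (a): the families -/

theorem rc_add_mu0_le_k0 : rc Kb (FN N) + mu0 N ≤ (k0 N : ℤ) := by
  have h := rc_nonneg (K := Kb) (F := FN N)
  rw [k0]
  push_cast
  rw [Int.toNat_of_nonneg h]

theorem sect_mem (k : ℕ) (φ : Fin (mk N k) → Kb) : sect k φ ∈ Lk N k :=
  Submodule.sum_mem _ fun a _ => Submodule.smul_mem _ _ (bas N k a).2

theorem sect_eq_zero_iff (k : ℕ) (φ : Fin (mk N k) → Kb) : sect k φ = 0 ↔ φ = 0 := by
  constructor
  · intro h
    have h1 := crd_sum (N := N) k φ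
    rw [← h1]
    exact (crd_eq_zero_iff (sect_mem k φ)).mpr h
  · rintro rfl
    simp [sect]

theorem sect_smul (k : ℕ) (a : Kb) (φ : Fin (mk N k) → Kb) : sect k (a • φ) = a • sect k φ := by
  rw [sect, sect, Finset.smul_sum]
  refine Finset.sum_congr rfl fun i _ => ?_
  rw [Pi.smul_apply, smul_eq_mul, mul_smul]

theorem exists_sect_eq {k : ℕ} {f : FN N} (hf : f ∈ Lk N k) : ∃ φ, sect k φ = f :=
  ⟨crd N k f, (eq_sum_crd hf).symm⟩

theorem tdiv_append (P : Fin d → Pl N) (S : Fin e → Pl N) : tdiv (Fin.append P S) = tdiv P + tdiv S := by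
  rw [tdiv, tdiv, tdiv, Fin.sum_univ_add]
  simp only [Fin.append_left, Fin.append_right]

namespace RankA

theorem secx_smul (c : Kb) (x : Fin (mk N (mu0 N)) → Kb)
    (ik : Fin (mk N (mu0 N)) × Fin (mk N (mu0 N))) : secx N (c • x) ik = c • secx N x ik := by
  rw [secx, secx, smul_sub, Pi.smul_apply, Pi.smul_apply, smul_eq_mul, smul_eq_mul, mul_smul,
    mul_smul]

theorem prod_secx_mul_mem (n k₀ : ℕ) (x : Fin n → Fin (mk N (mu0 N)) → Kb)
    (ik : Fin n → Fin (mk N (mu0 N)) × Fin (mk N (mu0 N))) {g : FN N} (hg : g ∈ Lk N k₀) :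
    (∏ j, secx N (x j) (ik j)) * g ∈ Lk N (n * mu0 N + k₀) := by
  induction n with
  | zero => simpa using hg
  | succ n ih =>
    rw [Fin.prod_univ_succ, mul_assoc,
      show (n + 1) * mu0 N + k₀ = mu0 N + (n * mu0 N + k₀) by ring]
    exact mul_mem_Lk (secx_mem _ _) (ih _ _)

end RankA

/-- homogeneity of the family -/
theorem famx_smul (k₀ : ℕ) (c : Fin n → Kb) (x : Fin n → Fin (mk N (mu0 N)) → Kb) (γ : Gam N n k₀) :
    famx n k₀ (fun j => c j • x j) γ = (∏ j, c j) • famx n k₀ x γ := by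
  rw [famx, famx, ← smul_mul_assoc, ← Finset.prod_smul]
  congr 1
  exact Finset.prod_congr rfl fun j _ => RankA.secx_smul _ _ _

theorem famx_app (c : Fin d → Kb) (P : Fin d → Pl N) (S : Fin e → Pl N) (γ : Gam N (d + e) (k0 N)) :
    famx (d + e) (k0 N) (app (fun j => c j • pt N (mu0 N) (P j)) S) γ =
      (∏ j, c j) • fam (d + e) (k0 N) (Fin.append P S) γ := by
  have h1 : app (fun j => c j • pt N (mu0 N) (P j)) S =
      fun j => (Fin.append c (fun _ : Fin e => (1 : Kb))) j • pt N (mu0 N) (Fin.append P S j) := by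
    funext j
    refine Fin.addCases (fun i => ?_) (fun i => ?_) j
    · simp only [app, Fin.append_left]
    · simp only [app, Fin.append_right, one_smul]
  have h2 : ∏ j, (Fin.append c (fun _ : Fin e => (1 : Kb))) j = ∏ j, c j := by
    rw [Fin.prod_univ_add]
    simp only [Fin.append_left, Fin.append_right, Finset.prod_const_one, mul_one]
  rw [h1, famx_smul, h2]

theorem famx_mem (x : Fin n → Fin (mk N (mu0 N)) → Kb) (γ : Gam N n (k0 N)) :
    famx n (k0 N) x γ ∈ Lk N (lev N n) :=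
  RankA.prod_secx_mul_mem n (k0 N) x γ.1 (bas N (k0 N) γ.2).2

/-- Riemann (`riemann_eq`, `mk_eq`, `degree_koo`). -/
theorem finrank_LSp_lev (Q : Fin n → Pl N) :
    Module.finrank Kb (LSp (koo N (lev N n) - tdiv Q)) = rho N n := by
  have hrc := rc_nonneg (K := Kb) (F := FN N)
  have hk0 := rc_add_mu0_le_k0 (N := N)
  have hmu : 1 ≤ mu0 N := by rw [mu0]; omega
  have hn : n ≤ n * mu0 N := Nat.le_mul_of_pos_right n hmu
  have hlev : (lev N n : ℤ) = (n * mu0 N : ℕ) + k0 N := by rw [lev]; push_cast; ring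
  have hdeg : Divisor.degree (koo N (lev N n) - tdiv Q) = (lev N n : ℤ) - n := by
    rw [map_sub, degree_koo, degree_tdiv]
  have h1 := riemann_eq (D := koo N (lev N n) - tdiv Q) (by rw [hdeg]; omega)
  have h2 := mk_eq (N := N) (k := lev N n) (by omega)
  rw [hdeg] at h1
  have h3 : Module.finrank Kb (LSp (koo N (lev N n) - tdiv Q)) =
      ell (koo N (lev N n) - tdiv Q) := rfl
  rw [h3, rho]
  omega

end H3

end Fermat.Agent.S17
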