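import Fermat.Agent.S17.H3.Defs

/-!
# S17 / H3-Rep : representatives of divisor classes, Galois action on them, `hsmooth`
-/

set_option autoImplicit false
set_option linter.unusedSectionVars false

open AlgebraicCurve ModularCurve IntermediateField

namespace Fermat.Agent.S17

open FF

namespace H3

variable {N : ℕ} [NeZero N] {d e : ℕ}

namespace Rep

theorem linEq_iff_mem {D E : Dv N} :
    LinEq D E ↔ D - E ∈ Divisor.principal (K := Kb) (F := FN N) := Iff.rfl

theorem cls_eq_zero_iff (D : Dv N) (hD : Divisor.degree D = 0) :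
    cls N D hD = 0 ↔ D ∈ Divisor.principal (K := Kb) (F := FN N) := by
  unfold cls Pic0.mk
  rw [QuotientAddGroup.eq_zero_iff, AddSubgroup.mem_addSubgroupOf]

theorem cls_sub (D E : Dv N) (hD : Divisor.degree D = 0) (hE : Divisor.degree E = 0) :
    cls N D hD - cls N E hE = cls N (D - E) (by rw [map_sub, hD, hE, sub_zero]) := rfl

theorem cls_congr {D E : Dv N} (h : D = E) (hD : Divisor.degree D = 0) :
    cls N D hD = cls N E (h ▸ hD) := by
  subst h; rfl

theorem gal_smul_tdiv (σ : GQ) (P : Fin d → Pl N) :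
    gal Kb N σ • tdiv P = tdiv (fun j => gal Kb N σ • P j) := by
  simp only [tdiv, Finset.smul_sum, pdiv, SemilinearAut.smul_single]

end Rep

open _root_.Fermat.Agent.S17.H3.Rep

theorem LinEq.symm {D E : Dv N} (h : LinEq D E) : LinEq E D := by
  rw [linEq_iff_mem] at h ⊢
  have := neg_mem h
  rwa [neg_sub] at this

theorem linEq_add_left_iff (C D E : Dv N) : LinEq (C + D) (C + E) ↔ LinEq D E := by
  rw [linEq_iff_mem, linEq_iff_mem, add_sub_add_left_eq_sub]

/-- (`QuotientAddGroup.eq`, `AddSubgroup.mem_addSubgroupOf`, `Divisor.mem_principal`.) -/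
theorem clsT_eq_zero_iff (P Q : Fin d → Pl N) : clsT P Q = 0 ↔ LinEq (tdiv P) (tdiv Q) := by
  rw [clsT, cls_eq_zero_iff, linEq_iff_mem]

/-- `[P' - Q] - [P - Q] = [Sp - Sm]  ↔  P + Sp ∼ P' + Sm`. -/
theorem clsT_sub_clsT_eq_iff (P P' Q : Fin d → Pl N) (Sp Sm : Fin e → Pl N) :
    clsT P' Q - clsT P Q = clsT Sp Sm ↔ LinEq (tdiv P + tdiv Sp) (tdiv P' + tdiv Sm) := by
  rw [← sub_eq_zero, clsT, clsT, clsT, cls_sub, cls_sub, cls_eq_zero_iff, linEq_iff_mem,
    ← neg_mem_iff]
  have : -(tdiv P' - tdiv Q - (tdiv P - tdiv Q) - (tdiv Sp - tdiv Sm))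
      = tdiv P + tdiv Sp - (tdiv P' + tdiv Sm) := by abel
  rw [this]

/-- (`galois_smul_pic0_def`, `SemilinearAut.pic0_smul_mk`, `SemilinearAut.smul_single`.) -/
theorem gal_smul_clsT (σ : GQ) (P Q : Fin d → Pl N) :
    σ • clsT P Q = clsT (fun j => gal Kb N σ • P j) (fun j => gal Kb N σ • Q j) := by
  rw [galois_smul_pic0_def]
  unfold clsT cls
  rw [SemilinearAut.pic0_smul_mk]
  congr 1
  apply Subtype.ext
  rw [SemilinearAut.coe_degZeroSMulHom]
  show gal Kb N σ • (tdiv P - tdiv Q) = _
  rw [smul_sub, gal_smul_tdiv, gal_smul_tdiv]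

/-- an effective divisor of degree `d` is the divisor of a `d`-tuple (induction on `d`; `degree_eq_sum`). -/
theorem exists_tdiv_eq {E : Dv N} (hE : 0 ≤ E) (hd : Divisor.degree E = d) :
    ∃ P : Fin d → Pl N, E = tdiv P := by
  induction d generalizing E with
  | zero =>
    refine ⟨fun i => i.elim0, ?_⟩
    have h0 : E = 0 := by
      rw [degree_eq_sum, Finsupp.sum] at hd
      have h1 := (Finset.sum_eq_zero_iff_of_nonneg (fun v _ => hE v)).mp (by simpa using hd)
      ext v
      by_cases hv : v ∈ E.support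
      · exact h1 v hv
      · simpa using hv
    rw [h0]
    simp [tdiv]
  | succ d ih =>
    have hne : E ≠ 0 := by
      intro h
      rw [h, map_zero] at hd
      push_cast at hd
      omega
    obtain ⟨v, hv⟩ := Finsupp.support_nonempty_iff.mpr hne
    have hv1 : 1 ≤ E v := by
      have h1 := hE v
      have h2 : E v ≠ 0 := Finsupp.mem_support_iff.mp hv
      have h3 : (0 : ℤ) ≤ E v := h1
      omega
    obtain ⟨P, hP⟩ := ih (E := E - pdiv v) (by
      intro w
      rw [Finsupp.sub_apply, Finsupp.coe_zero, Pi.zero_apply]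
      by_cases hw : v = w
      · subst hw; simp [pdiv]; omega
      · have := hE w
        simp only [Finsupp.coe_zero, Pi.zero_apply] at this
        simp [pdiv, Finsupp.single_eq_of_ne' hw, this]) (by
      rw [map_sub, hd, LBasic.degree_pdiv]
      push_cast; ring)
    refine ⟨Fin.cons v P, ?_⟩
    have : tdiv (Fin.cons v P : Fin (d + 1) → Pl N) = pdiv v + tdiv P := by
      simp [tdiv, Fin.sum_univ_succ]
    rw [this, ← hP]
    abel

/-- every class is `[∑_{j<g} P_j - g ∞]` (`FF.exists_effective_rep`, `exists_tdiv_eq`, `Pic0.mk_surjective`). -/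
theorem exists_rep (y : JZero N) :
    ∃ P : Fin (genus Kb (FN N)) → Pl N, y = clsT P (fun _ => oo N) := by
  obtain ⟨⟨D, hD⟩, rfl⟩ := Pic0.mk_surjective y
  have hD' : Divisor.degree D = 0 := hD
  obtain ⟨E, hE, hdeg, hlin⟩ := exists_effective_rep (oo N) D hD' (le_refl (genus Kb (FN N)))
  obtain ⟨P, hP⟩ := exists_tdiv_eq hE hdeg
  refine ⟨P, ?_⟩
  have h1 : tdiv (fun _ : Fin (genus Kb (FN N)) => oo N) = genus Kb (FN N) • pdiv (oo N) := by
    simp [tdiv]
  symm
  rw [← sub_eq_zero]
  show clsT P (fun _ => oo N) - cls N D hD' = 0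
  rw [clsT, cls_sub, cls_eq_zero_iff, h1, ← hP]
  exact hlin

/-- **hsmooth**: every class is fixed by an open subgroup
(`exists_rep`, `exists_fixingSubgroup_place`, `gal_smul_infP`, `gal_smul_clsT`; compositum of finitely many number fields:
`IntermediateField.finiteDimensional_iSup_of_finset'` as in `H.exists_field_fixing`). -/
theorem hsmooth (y : JZero N) : ∃ L : IntermediateField ℚ Kb, FiniteDimensional ℚ L ∧
    ∀ σ ∈ L.fixingSubgroup, σ • y = y := by
  obtain ⟨P, rfl⟩ := exists_rep y
  choose L hL1 hL2 using fun j => exists_fixingSubgroup_place (P j)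
  refine ⟨⨆ j ∈ (Finset.univ : Finset (Fin (genus Kb (FN N)))), L j,
    IntermediateField.finiteDimensional_iSup_of_finset' (fun j _ => hL1 j), ?_⟩
  intro σ hσ
  rw [gal_smul_clsT]
  congr 1
  · funext j
    apply hL2 j σ
    have hle : L j ≤ ⨆ j ∈ (Finset.univ : Finset (Fin (genus Kb (FN N)))), L j :=
      le_iSup_of_le j (le_iSup (fun _ => L j) (Finset.mem_univ j))
    exact IntermediateField.fixingSubgroup_antitone hle hσ
  · funext j
    exact gal_smul_infP σ

end H3

end Fermat.Agent.S17
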